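import Mathlib
import Fermat.Agent.H24K.Trace
import Fermat.Agent.Frob.Count
import Fermat.Agent.H09.TorsionCount

/-!
# Curves over `𝔽_r`, `r ≡ 2 (mod 3)`: the curve `c₄ = 0` is supersingular; the `3`-division
quartic has a root when `3` divides the trace
-/

set_option autoImplicit false
set_option linter.style.haveILetI false

namespace Fermat.Agent.H16.P2

open WeierstrassCurve WeierstrassCurve.Affine WeierstrassCurve.Affine.Point
open Fermat.Agent.H09

section

variable {r : ℕ} [hr : Fact r.Prime]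

/-- cubing is a bijection of `𝔽_r` -/
theorem exists_cuberoot (h3 : r % 3 = 2) (y : ZMod r) : ∃! x : ZMod r, x ^ 3 = y := by
  have hpos := hr.out.pos
  have hpow : ∀ x : ZMod r, (x ^ 3) ^ (2 * (r / 3) + 1) = x := by
    intro x
    have e : 3 * (2 * (r / 3) + 1) = r + (r - 1) := by omega
    rw [← pow_mul, e, pow_add, ZMod.pow_card, ← pow_succ', Nat.sub_add_cancel hpos,
      ZMod.pow_card]
  refine ⟨y ^ (2 * (r / 3) + 1), ?_, ?_⟩
  · change (y ^ (2 * (r / 3) + 1)) ^ 3 = y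
    rw [← pow_mul, mul_comm, pow_mul, hpow]
  · intro x hx
    change x ^ 3 = y at hx
    rw [← hx, hpow]

theorem card_eq_of_short (h3 : r % 3 = 2) (V : WeierstrassCurve (ZMod r)) (h1 : V.a₁ = 0)
    (h2 : V.a₂ = 0) (h3' : V.a₃ = 0) (h4 : V.a₄ = 0) (hΔ : V.Δ ≠ 0) :
    V.traceOfFrobenius = 0 := by
  classical
  haveI : V.IsElliptic := ⟨isUnit_iff_ne_zero.mpr hΔ⟩
  haveI : (V.toAffine).IsElliptic := ⟨isUnit_iff_ne_zero.mpr hΔ⟩
  have hcard : Nat.card V.toAffine.Point = 1 + ∑ c : ZMod r, (Frob.fib V.toAffine c).card :=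
    Frob.card_point_eq
  have heq : ∀ c y : ZMod r, V.toAffine.Equation c y ↔ c ^ 3 = y ^ 2 - V.a₆ := by
    intro c y
    rw [equation_iff]
    change y ^ 2 + V.a₁ * c * y + V.a₃ * y = c ^ 3 + V.a₂ * c ^ 2 + V.a₄ * c + V.a₆ ↔ _
    rw [h1, h2, h3', h4]
    constructor
    · intro h; linear_combination -h
    · intro h; linear_combination -h
  have hsum : ∑ c : ZMod r, (Frob.fib V.toAffine c).card = r := by
    have h5 : ∑ c : ZMod r, (Frob.fib V.toAffine c).card =
        ∑ c : ZMod r, ∑ y : ZMod r, if c ^ 3 = y ^ 2 - V.a₆ then 1 else 0 := by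
      apply Finset.sum_congr rfl
      intro c _
      rw [← Finset.card_filter]
      congr 1
      ext y
      rw [Frob.mem_fib, Finset.mem_filter, heq]
      simp
    rw [h5, Finset.sum_comm]
    have h6 : ∀ y : ZMod r, (∑ c : ZMod r, if c ^ 3 = y ^ 2 - V.a₆ then 1 else 0) = 1 := by
      intro y
      obtain ⟨x, hx, hux⟩ := exists_cuberoot h3 (y ^ 2 - V.a₆)
      rw [Finset.sum_eq_single x]
      · exact if_pos hx
      · intro b _ hb
        exact if_neg fun h => hb (hux b h)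
      · intro h
        exact absurd (Finset.mem_univ x) h
    rw [Finset.sum_congr rfl fun y _ => h6 y]
    simp [ZMod.card]
  unfold traceOfFrobenius WeierstrassCurve.card
  rw [hcard, hsum, Nat.card_zmod]
  push_cast
  ring

/-- **supersingularity of `j = 0`** -/
theorem trace_zero_of_c4 (h3 : r % 3 = 2) (h5 : 5 ≤ r) (V : WeierstrassCurve (ZMod r))
    (hΔ : V.Δ ≠ 0) (hc : V.c₄ = 0) : V.traceOfFrobenius = 0 := by
  have h2 : (2 : ZMod r) ≠ 0 := by
    intro h
    have h' : ((2 : ℕ) : ZMod r) = 0 := by exact_mod_cast h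
    have := Nat.le_of_dvd (by norm_num) ((ZMod.natCast_eq_zero_iff 2 r).mp h')
    omega
  have h3z : (3 : ZMod r) ≠ 0 := by
    intro h
    have h' : ((3 : ℕ) : ZMod r) = 0 := by exact_mod_cast h
    have := Nat.le_of_dvd (by norm_num) ((ZMod.natCast_eq_zero_iff 3 r).mp h')
    omega
  letI : Invertible (2 : ZMod r) := invertibleOfNonzero h2
  letI : Invertible (3 : ZMod r) := invertibleOfNonzero h3z
  obtain ⟨C, hC⟩ := V.exists_variableChange_isShortNF
  have h4 : (C • V).c₄ = 0 := by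
    rw [variableChange_c₄, hc, mul_zero]
  have h5' : (C • V).Δ ≠ 0 := by
    rw [variableChange_Δ]
    exact mul_ne_zero (pow_ne_zero _ (Units.ne_zero _)) hΔ
  have ha4 : (C • V).a₄ = 0 := by
    have h6 : (C • V).c₄ = -48 * (C • V).a₄ := by
      rw [WeierstrassCurve.c₄, WeierstrassCurve.b₂, WeierstrassCurve.b₄, hC.a₁, hC.a₂, hC.a₃]
      ring
    rw [h4] at h6
    have h48 : (-48 : ZMod r) ≠ 0 := by
      have : (-48 : ZMod r) = -(2 ^ 4 * 3) := by norm_num
      rw [this]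
      exact neg_ne_zero.mpr (mul_ne_zero (pow_ne_zero _ h2) h3z)
    exact (mul_eq_zero.mp h6.symm).resolve_left h48
  rw [← H24K.trace_vc C V]
  exact card_eq_of_short h3 _ hC.a₁ hC.a₂ hC.a₃ ha4 h5'

/-- **a point of order `3`** -/
theorem exists_three_torsion (h3 : r % 3 = 2) (V : WeierstrassCurve (ZMod r))
    (ht : (3 : ℤ) ∣ V.traceOfFrobenius) : ∃ P : V.toAffine.Point, P ≠ 0 ∧ 3 • P = 0 := by
  classical
  have hcard : 3 ∣ Nat.card V.toAffine.Point := by
    unfold traceOfFrobenius WeierstrassCurve.card at ht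
    rw [Nat.card_zmod] at ht
    have h4 : ((Nat.card V.toAffine.Point : ℕ) : ℤ) =
        ((r : ℤ) + 1) - ((r : ℤ) + 1 - (Nat.card V.toAffine.Point : ℤ)) := by ring
    have h5 : (3 : ℤ) ∣ (r : ℤ) + 1 := by omega
    have h6 : (3 : ℤ) ∣ ((Nat.card V.toAffine.Point : ℕ) : ℤ) := by
      rw [h4]
      exact dvd_sub h5 ht
    exact_mod_cast h6
  haveI : Fact (Nat.Prime 3) := ⟨Nat.prime_three⟩
  obtain ⟨P, hP⟩ := exists_prime_addOrderOf_dvd_card' 3 hcard
  refine ⟨P, ?_, ?_⟩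
  · rintro rfl
    rw [addOrderOf_zero] at hP
    norm_num at hP
  · rw [← hP]
    exact addOrderOf_nsmul_eq_zero P

/-- **the quartic has a root** -/
theorem exists_root_of_three_dvd_trace (h3 : r % 3 = 2) (V : WeierstrassCurve (ZMod r))
    (ht : (3 : ℤ) ∣ V.traceOfFrobenius) :
    ∃ z : ZMod r, z ^ 4 - 6 * V.c₄ * z ^ 2 - 8 * V.c₆ * z - 3 * V.c₄ ^ 2 = 0 := by
  classical
  obtain ⟨P, hP, h3P⟩ := exists_three_torsion h3 V ht
  have hΨ : (V.preΨ' 3).eval (xc P) = 0 :=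
    (smul_eq_zero_iff_eval hP (n := 3) (by decide)).mp h3P
  rw [V.preΨ'_three] at hΨ
  have hΨ3 : 3 * xc P ^ 4 + V.b₂ * xc P ^ 3 + 3 * V.b₄ * xc P ^ 2 + 3 * V.b₆ * xc P + V.b₈ = 0 := by
    rw [← hΨ]
    simp [WeierstrassCurve.Ψ₃]
  refine ⟨12 * xc P + V.b₂, ?_⟩
  have hb := V.b_relation
  rw [WeierstrassCurve.c₄, WeierstrassCurve.c₆]
  linear_combination 6912 * hΨ3 - 1728 * hb

end

end Fermat.Agent.H16.P2
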